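import Mathlib

set_option autoImplicit false

namespace Fermat.Agent.S57

open IsLocalRing RingTheory.Sequence CategoryTheory Abelian
open scoped Pointwise

/-- The maximal ideal is generated by a regular sequence of length `n`. -/
def RegGen (A : Type) [CommRing A] [IsLocalRing A] (n : ℕ) : Prop :=
  ∃ ts : List A, ts.length = n ∧ IsRegular A ts ∧ Ideal.ofList ts = maximalIdeal A

/-- Splitting off a generator with unit coefficient. -/
theorem exists_unit_coeff {A : Type} [CommRing A] [IsLocalRing A] :
    ∀ (ts : List A) (x : A), x ∈ Ideal.ofList ts → x ∉ maximalIdeal A * Ideal.ofList ts →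
      ∃ (s : A) (ss : List A) (u : Aˣ) (m : A), ts.Perm (s :: ss) ∧ m ∈ Ideal.ofList ss ∧
        x = u * s + m := by
  intro ts
  induction ts with
  | nil =>
    intro x hx hx'
    simp only [Ideal.ofList_nil, Ideal.mem_bot] at hx
    subst hx
    exact absurd (Ideal.zero_mem _) hx'
  | cons t ts ih =>
    intro x hx hx'
    rw [Ideal.ofList_cons, Ideal.mem_span_singleton_sup] at hx
    obtain ⟨a, x', hx'mem, rfl⟩ := hx
    by_cases ha : IsUnit a
    · exact ⟨t, ts, ha.unit, x', List.Perm.refl _, hx'mem, by simp⟩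
    · have ha' : a ∈ maximalIdeal A := (IsLocalRing.mem_maximalIdeal a).mpr ha
      have hx'' : x' ∉ maximalIdeal A * Ideal.ofList ts := by
        intro hmem
        apply hx'
        rw [Ideal.ofList_cons]
        refine Ideal.add_mem _ ?_ ?_
        · exact Ideal.mul_mem_mul ha' (Ideal.mem_sup_left (Ideal.mem_span_singleton_self t))
        · exact Ideal.mul_mono_right le_sup_right hmem
      obtain ⟨s, ss, u, m, hperm, hm, rfl⟩ := ih x' hx'mem hx''
      refine ⟨s, t :: ss, u, a * t + m, ?_, ?_, by ring⟩
      · exact (List.Perm.cons t hperm).trans (List.Perm.swap s t ss)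
      · rw [Ideal.ofList_cons]
        exact Ideal.add_mem _ (Ideal.mem_sup_left (Ideal.mem_span_singleton'.mpr ⟨a, rfl⟩))
          (Ideal.mem_sup_right hm)

theorem isLocalRing_quot {A : Type} [CommRing A] [IsLocalRing A] {x : A}
    (hx : x ∈ maximalIdeal A) : IsLocalRing (A ⧸ Ideal.span {x}) := by
  have : Nontrivial (A ⧸ Ideal.span {x}) := by
    rw [Ideal.Quotient.nontrivial_iff]
    intro h
    rw [Ideal.span_singleton_eq_top] at h
    exact (IsLocalRing.mem_maximalIdeal x).mp hx h
  exact IsLocalRing.of_surjective' (Ideal.Quotient.mk _) Ideal.Quotient.mk_surjective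

theorem map_mk_maximalIdeal {A : Type} [CommRing A] [IsLocalRing A] (I : Ideal A)
    [IsLocalRing (A ⧸ I)] :
    (maximalIdeal A).map (Ideal.Quotient.mk I) = maximalIdeal (A ⧸ I) := by
  apply le_antisymm
  · rw [Ideal.map_le_iff_le_comap]
    intro a ha
    rw [Ideal.mem_comap, IsLocalRing.mem_maximalIdeal]
    intro hu
    have hI : I ≤ maximalIdeal A := IsLocalRing.le_maximalIdeal (by
      intro h
      have : (1 : A ⧸ I) = 0 := by
        rw [← map_one (Ideal.Quotient.mk I), Ideal.Quotient.eq_zero_iff_mem, h]; trivial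
      exact one_ne_zero this)
    obtain ⟨b, hb⟩ := hu.exists_right_inv
    obtain ⟨b, rfl⟩ := Ideal.Quotient.mk_surjective b
    rw [← map_mul, ← map_one (Ideal.Quotient.mk I), Ideal.Quotient.eq] at hb
    have h1 : a * b ∈ maximalIdeal A := Ideal.mul_mem_right _ _ ha
    have h2 : (1 : A) ∈ maximalIdeal A := by
      have := Ideal.sub_mem _ h1 (hI hb)
      simp at this
    exact (IsLocalRing.mem_maximalIdeal (1 : A)).mp h2 isUnit_one
  · intro b hb
    obtain ⟨a, rfl⟩ := Ideal.Quotient.mk_surjective b
    apply Ideal.mem_map_of_mem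
    rw [IsLocalRing.mem_maximalIdeal] at hb ⊢
    intro hu
    exact hb (hu.map _)

theorem regGen_quotient {A : Type} [CommRing A] [IsLocalRing A] [IsNoetherianRing A] {n : ℕ}
    (hA : RegGen A (n + 1)) {x : A} (hx : x ∈ maximalIdeal A) (hx2 : x ∉ maximalIdeal A ^ 2)
    [IsLocalRing (A ⧸ Ideal.span {x})] : RegGen (A ⧸ Ideal.span {x}) n := by
  obtain ⟨ts, hlen, hreg, hgen⟩ := hA
  have hx' : x ∈ Ideal.ofList ts := hgen ▸ hx
  have hx2' : x ∉ maximalIdeal A * Ideal.ofList ts := by rw [hgen, ← pow_two]; exact hx2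
  obtain ⟨s, ss, u, m, hperm, hm, hxeq⟩ := exists_unit_coeff ts x hx' hx2'
  have hreg1 : IsRegular A (s :: ss) := IsLocalRing.isRegular_of_perm hreg hperm
  have hreg2 : IsRegular A (ss ++ [s]) :=
    IsLocalRing.isRegular_of_perm hreg1 (List.perm_append_singleton s ss).symm
  have hw := (isWeaklyRegular_append_iff A ss [s]).mp hreg2.toIsWeaklyRegular
  have hs : IsSMulRegular (A ⧸ (Ideal.ofList ss • ⊤ : Submodule A A)) s :=
    (isWeaklyRegular_singleton_iff _ s).mp hw.2
  have hxr : IsSMulRegular (A ⧸ (Ideal.ofList ss • ⊤ : Submodule A A)) x := by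
    have key : ∀ q : A ⧸ (Ideal.ofList ss • ⊤ : Submodule A A), x • q = (u : A) • s • q := by
      intro q
      obtain ⟨a, rfl⟩ := Submodule.Quotient.mk_surjective _ q
      rw [hxeq, add_smul, mul_smul]
      have : m • (Submodule.Quotient.mk a : A ⧸ (Ideal.ofList ss • ⊤ : Submodule A A)) = 0 := by
        rw [← Submodule.Quotient.mk_smul, Submodule.Quotient.mk_eq_zero]
        exact Submodule.smul_mem_smul hm Submodule.mem_top
      rw [this, add_zero]
    intro q1 q2 h
    simp only [key] at h
    have h' : s • q1 = s • q2 := by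
      have := congrArg (fun q => ((u⁻¹ : Aˣ) : A) • q) h
      simpa [smul_smul] using this
    exact hs h'
  have hw2 : IsWeaklyRegular A (ss ++ [x]) :=
    (isWeaklyRegular_append_iff A ss [x]).mpr ⟨hw.1, (isWeaklyRegular_singleton_iff _ x).mpr hxr⟩
  have hgen' : Ideal.ofList (s :: ss) = maximalIdeal A := by
    rw [← hgen]
    exact congrArg Ideal.span (Set.ext fun r => (hperm.mem_iff).symm)
  have hssmem : ∀ r ∈ ss, r ∈ maximalIdeal A := by
    intro r hr
    rw [← hgen']
    exact Ideal.subset_span (List.mem_cons_of_mem _ hr)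
  have hmem : ∀ r ∈ ss ++ [x], r ∈ maximalIdeal A := by
    intro r hr
    rw [List.mem_append, List.mem_singleton] at hr
    rcases hr with hr | rfl
    · exact hssmem r hr
    · exact hx
  have hreg3 : IsRegular A (ss ++ [x]) :=
    (IsLocalRing.isRegular_iff_isWeaklyRegular_of_subset_maximalIdeal hmem).mpr hw2
  have hreg4 : IsRegular A (x :: ss) :=
    IsLocalRing.isRegular_of_perm hreg3 (List.perm_append_singleton x ss)
  have h5 := ((isRegular_cons_iff' A x ss).mp hreg4).2
  let e : QuotSMulTop x A ≃ₗ[A ⧸ Ideal.span {x}] (A ⧸ Ideal.span {x}) :=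
    (Submodule.quotEquivOfEq (x • (⊤ : Submodule A A)) (Ideal.span {x})
      (by rw [← Submodule.ideal_span_singleton_smul]; simp)).extendScalarsOfSurjective
      Ideal.Quotient.mk_surjective
  refine ⟨ss.map (Ideal.Quotient.mk (Ideal.span {x})), ?_, (e.isRegular_congr _).mp h5, ?_⟩
  · have : (s :: ss).length = n + 1 := by rw [← hperm.length_eq, hlen]
    simpa using this
  · have hmap : Ideal.ofList (ss.map (Ideal.Quotient.mk (Ideal.span {x}))) =
        (Ideal.ofList ss).map (Ideal.Quotient.mk (Ideal.span {x})) := (Ideal.map_ofList _ _).symm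
    rw [hmap, ← map_mk_maximalIdeal, ← hgen', Ideal.ofList_cons, Ideal.map_sup]
    apply le_antisymm le_sup_right
    apply sup_le _ le_rfl
    rw [Ideal.map_span, Set.image_singleton, Ideal.span_singleton_le_iff_mem]
    have h0 : Ideal.Quotient.mk (Ideal.span {x}) x = 0 :=
      Ideal.Quotient.eq_zero_iff_mem.mpr (Ideal.mem_span_singleton_self x)
    have h1 : Ideal.Quotient.mk (Ideal.span {x}) s =
        Ideal.Quotient.mk (Ideal.span {x}) (-((u⁻¹ : Aˣ) : A) * m) := by
      have : s = ((u⁻¹ : Aˣ) : A) * x + (-((u⁻¹ : Aˣ) : A) * m) := by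
        rw [hxeq]; ring_nf
        simp
      conv_lhs => rw [this]
      rw [map_add, map_mul, h0, mul_zero, zero_add]
    rw [h1]
    exact Ideal.mem_map_of_mem _ (Ideal.mul_mem_left _ _ hm)

/-- Prime avoidance: in a Noetherian local ring with nonzero maximal ideal, a finite module
having a regular element in the maximal ideal has one outside the square of the
maximal ideal. -/
theorem exists_regular_not_mem_sq {A : Type} [CommRing A] [IsLocalRing A] [IsNoetherianRing A]
    {N : Type} [AddCommGroup N] [Module A N] [Module.Finite A N]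
    (hm : maximalIdeal A ≠ ⊥) {y : A} (hy : y ∈ maximalIdeal A) (hreg : IsSMulRegular N y) :
    ∃ x ∈ maximalIdeal A, x ∉ (maximalIdeal A) ^ 2 ∧ IsSMulRegular N x := by
  classical
  by_contra hcon
  push Not at hcon
  have hfin := associatedPrimes.finite A N
  set s : Finset (Ideal A) := insert ((maximalIdeal A) ^ 2) hfin.toFinset with hs
  have hsub : ((maximalIdeal A : Ideal A) : Set A) ⊆
      ⋃ i ∈ (s : Set (Ideal A)), ((id i : Ideal A) : Set A) := by
    intro x hx
    by_cases hx2 : x ∈ (maximalIdeal A) ^ 2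
    · simp only [Set.mem_iUnion]
      exact ⟨(maximalIdeal A) ^ 2, by simp [hs], hx2⟩
    · have hnr : ¬ IsSMulRegular N x := hcon x hx hx2
      have : x ∈ ⋃ p ∈ associatedPrimes A N, (p : Set A) := by
        rw [biUnion_associatedPrimes_eq_compl_regular]; exact hnr
      simp only [Set.mem_iUnion] at this ⊢
      obtain ⟨p, hp, hxp⟩ := this
      exact ⟨p, by simp [hs, hp], hxp⟩
  rw [Ideal.subset_union_prime ((maximalIdeal A) ^ 2) ((maximalIdeal A) ^ 2)] at hsub
  · obtain ⟨i, hi, hle⟩ := hsub
    simp only [hs, Finset.mem_insert, Set.Finite.mem_toFinset] at hi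
    rcases hi with rfl | hi
    · apply hm
      apply Submodule.eq_bot_of_le_smul_of_le_jacobson_bot (maximalIdeal A) (maximalIdeal A)
        (IsNoetherian.noetherian _)
      · simpa [pow_two] using hle
      · exact IsLocalRing.maximalIdeal_le_jacobson _
    · have : y ∈ ⋃ p ∈ associatedPrimes A N, (p : Set A) := by
        simp only [Set.mem_iUnion]
        exact ⟨i, hi, hle hy⟩
      rw [biUnion_associatedPrimes_eq_compl_regular] at this
      exact this hreg
  · intro i hi h1 _
    simp only [hs, Finset.mem_insert, Set.Finite.mem_toFinset] at hi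
    rcases hi with rfl | hi
    · exact absurd rfl h1
    · exact hi.isPrime

theorem exists_regular_quot {A : Type} [CommRing A] [IsLocalRing A] [IsNoetherianRing A]
    {N : Type} [AddCommGroup N] [Module A N] [Module.Finite A N] [Nontrivial N] {n : ℕ}
    {ys : List A} (hlen : ys.length = n + 1) (hmem : ∀ y ∈ ys, y ∈ maximalIdeal A)
    (hreg : IsWeaklyRegular N ys) {x : A} (hx : x ∈ maximalIdeal A) (hxr : IsSMulRegular N x) :
    ∃ rs : List A, rs.length = n ∧ (∀ r ∈ rs, r ∈ maximalIdeal A) ∧
      IsWeaklyRegular (QuotSMulTop x N) rs := by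
  have smul_lt : maximalIdeal A • (⊤ : Submodule A N) < ⊤ :=
    lt_top_iff_ne_top.mpr (Submodule.top_ne_ideal_smul_of_le_jacobson_annihilator
      (IsLocalRing.maximalIdeal_le_jacobson _)).symm
  have hreg' : IsRegular N ys :=
    (IsLocalRing.isRegular_iff_isWeaklyRegular_of_subset_maximalIdeal hmem).mpr hreg
  have tfae1 := ModuleCat.exists_isRegular_tfae (maximalIdeal A) (n + 1) (ModuleCat.of A N) smul_lt
  have h2 : ∀ i < n + 1, Subsingleton (Ext (ModuleCat.of A (Shrink.{0} (A ⧸ maximalIdeal A)))
      (ModuleCat.of A N) i) := by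
    have h31 := tfae1.out 3 1
    exact h31.mp ⟨ys, hlen, hmem, hreg'⟩
  have : Nontrivial (QuotSMulTop x N) := nontrivial_quotSMulTop_of_mem_maximalIdeal N hx
  have smul_lt' : maximalIdeal A • (⊤ : Submodule A (QuotSMulTop x N)) < ⊤ :=
    lt_top_iff_ne_top.mpr (Submodule.top_ne_ideal_smul_of_le_jacobson_annihilator
      (IsLocalRing.maximalIdeal_le_jacobson _)).symm
  have tfae2 := ModuleCat.exists_isRegular_tfae (maximalIdeal A) n
    (ModuleCat.of A (QuotSMulTop x N)) smul_lt'
  have h2' : ∀ i < n, Subsingleton (Ext (ModuleCat.of A (Shrink.{0} (A ⧸ maximalIdeal A)))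
      (ModuleCat.of A (QuotSMulTop x N)) i) := by
    intro i hi
    have zero1 := AddCommGrpCat.isZero_of_iff_subsingleton.mpr (h2 i (by omega))
    have zero2 := AddCommGrpCat.isZero_of_iff_subsingleton.mpr (h2 (i + 1) (by omega))
    exact AddCommGrpCat.subsingleton_of_isZero <| ShortComplex.Exact.isZero_of_both_zeros
      ((Ext.covariant_sequence_exact₃' (ModuleCat.of A (Shrink.{0} (A ⧸ maximalIdeal A)))
        (IsSMulRegular.smulShortComplex_shortExact (M := ModuleCat.of A N) hxr)) i (i + 1) rfl)
      (zero1.eq_zero_of_src _) (zero2.eq_zero_of_tgt _)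
  have h13 := tfae2.out 1 3
  obtain ⟨rs, h1, h2, h3⟩ := h13.mp h2'
  exact ⟨rs, h1, h2, h3.toIsWeaklyRegular⟩


/-- A finite module over a Noetherian local ring whose maximal ideal is generated by a regular
sequence of length `n`, and which has a weakly regular sequence of length `n` inside the
maximal ideal, is free. -/
theorem free_of_regGen (n : ℕ) : ∀ (A : Type) [CommRing A] [IsLocalRing A] [IsNoetherianRing A]
    (_ : RegGen A n) (N : Type) [AddCommGroup N] [Module A N] [Module.Finite A N]
    (ys : List A) (_ : ys.length = n) (_ : ∀ y ∈ ys, y ∈ maximalIdeal A)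
    (_ : IsWeaklyRegular N ys), Module.Free A N := by
  induction n with
  | zero =>
    intro A _ _ _ hA N _ _ _ ys _ _ _
    obtain ⟨ts, hlen, hreg, hgen⟩ := hA
    have : ts = [] := List.length_eq_zero_iff.mp hlen
    subst this
    have hbot : maximalIdeal A = ⊥ := by rw [← hgen]; simp
    have hf : IsField A := IsLocalRing.isField_iff_maximalIdeal_eq.mpr hbot
    let _ := hf.toField
    exact Module.Free.of_divisionRing A N
  | succ n ih =>
    intro A _ _ _ hA N _ _ _ ys hlen hmem hreg
    rcases subsingleton_or_nontrivial N with hN | hN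
    · exact Module.Free.of_subsingleton A N
    have hm : maximalIdeal A ≠ ⊥ := by
      obtain ⟨ts, htlen, htreg, htgen⟩ := hA
      match ts, htlen, htreg, htgen with
      | t :: ts', _, htreg, htgen =>
        intro hbot
        have ht : t ∈ maximalIdeal A := by
          rw [← htgen]; exact Ideal.subset_span List.mem_cons_self
        rw [hbot, Ideal.mem_bot] at ht
        have h0 : IsSMulRegular A t := ((isRegular_cons_iff A t ts').mp htreg).1
        rw [ht] at h0
        have : Subsingleton A := (IsSMulRegular.zero_iff_subsingleton).mp h0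
        exact not_subsingleton A this
    match ys, hlen, hmem, hreg with
    | y :: ys', hlen, hmem, hreg =>
      have hy : y ∈ maximalIdeal A := hmem y List.mem_cons_self
      have hyreg : IsSMulRegular N y := ((isWeaklyRegular_cons_iff N y ys').mp hreg).1
      obtain ⟨x, hx, hx2, hxreg⟩ := exists_regular_not_mem_sq hm hy hyreg
      have := isLocalRing_quot hx
      have hA' : RegGen (A ⧸ Ideal.span {x}) n := regGen_quotient hA hx hx2
      obtain ⟨rs, hrlen, hrmem, hrreg⟩ := exists_regular_quot hlen hmem hreg hx hxreg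
      have : Module.Finite (A ⧸ Ideal.span {x}) (QuotSMulTop x N) :=
        Module.Finite.of_restrictScalars_finite A (A ⧸ Ideal.span {x}) (QuotSMulTop x N)
      have hfree : Module.Free (A ⧸ Ideal.span {x}) (QuotSMulTop x N) := by
        apply ih (A ⧸ Ideal.span {x}) hA' (QuotSMulTop x N)
          (rs.map (Ideal.Quotient.mk (Ideal.span {x}))) (by simpa using hrlen)
        · intro r hr
          obtain ⟨a, ha, rfl⟩ := List.mem_map.mp hr
          rw [← map_mk_maximalIdeal]
          exact Ideal.mem_map_of_mem _ (hrmem a ha)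
        · exact (isWeaklyRegular_map_algebraMap_iff (A ⧸ Ideal.span {x}) (QuotSMulTop x N)
            rs).mpr hrreg
      have : Module.FinitePresentation A N := Module.finitePresentation_of_finite A N
      exact (Module.free_quotSMulTop_iff_free A N
        (by rw [IsLocalRing.jacobson_eq_maximalIdeal ⊥ bot_ne_top]; exact hx) hxreg).mp hfree

/-- transport along a ring isomorphism -/
theorem RegGen.of_ringEquiv {A B : Type} [CommRing A] [IsLocalRing A] [CommRing B] [IsLocalRing B]
    {n : ℕ} (h : RegGen A n) (e : A ≃+* B) : RegGen B n := by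
  obtain ⟨ts, hlen, hreg, hgen⟩ := h
  refine ⟨ts.map e, by simpa using hlen, ?_, ?_⟩
  · refine (AddEquiv.isRegular_congr (e := e.toAddEquiv) ?_).mp hreg
    refine List.forall₂_map_right_iff.mpr (List.forall₂_same.mpr fun r _ x => ?_)
    simp
  · have : Ideal.ofList (ts.map e) = (Ideal.ofList ts).map (e : A →+* B) :=
      (Ideal.map_ofList (e : A →+* B) ts).symm
    rw [this, hgen]
    exact IsLocalRing.map_ringEquiv_maximalIdeal e

/-- the constant coefficient identifies `S⟦X⟧ / X` with `S` -/
noncomputable def quotXEquiv (S : Type) [CommRing S] :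
    QuotSMulTop (PowerSeries.X : PowerSeries S) (PowerSeries S) ≃+ S :=
  (QuotientAddGroup.quotientAddEquivOfEq (by
    ext f
    simp only [Submodule.mem_toAddSubgroup, AddMonoidHom.mem_ker]
    rw [Submodule.mem_smul_pointwise_iff_exists]
    constructor
    · rintro ⟨g, -, rfl⟩
      simp
    · intro hf
      obtain ⟨g, rfl⟩ := PowerSeries.X_dvd_iff.mpr hf
      exact ⟨g, Submodule.mem_top, rfl⟩)).trans
  (QuotientAddGroup.quotientKerEquivOfSurjective
    (PowerSeries.constantCoeff (R := S)).toAddMonoidHom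
    (fun s => ⟨PowerSeries.C s, by simp⟩))

theorem quotXEquiv_mk (S : Type) [CommRing S] (f : PowerSeries S) :
    quotXEquiv S (Submodule.Quotient.mk f) = PowerSeries.constantCoeff f := rfl

theorem RegGen.powerSeries {S : Type} [CommRing S] [IsLocalRing S] {n : ℕ} (h : RegGen S n) :
    RegGen (PowerSeries S) (n + 1) := by
  obtain ⟨ss, hlen, hreg, hgen⟩ := h
  refine ⟨PowerSeries.X :: ss.map PowerSeries.C, by simpa using hlen, ?_, ?_⟩
  · rw [isRegular_cons_iff]
    constructor
    · intro f g hfg
      simp only [smul_eq_mul] at hfg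
      exact PowerSeries.X_mul_cancel hfg
    · refine (AddEquiv.isRegular_congr (e := quotXEquiv S) ?_).mpr hreg
      refine List.forall₂_map_left_iff.mpr (List.forall₂_same.mpr fun r _ q => ?_)
      obtain ⟨f, rfl⟩ := Submodule.Quotient.mk_surjective _ q
      rw [← Submodule.Quotient.mk_smul, quotXEquiv_mk, quotXEquiv_mk]
      simp
  · apply le_antisymm
    · rw [Ideal.span_le]
      intro f hf
      simp only [List.mem_cons, List.mem_map, Set.mem_ofPred_eq] at hf
      rw [SetLike.mem_coe, IsLocalRing.mem_maximalIdeal, mem_nonunits_iff,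
        PowerSeries.isUnit_iff_constantCoeff]
      rcases hf with rfl | ⟨s, hs, rfl⟩
      · simp
      · have : s ∈ maximalIdeal S := by rw [← hgen]; exact Ideal.subset_span hs
        simpa using this
    · intro f hf
      rw [IsLocalRing.mem_maximalIdeal, mem_nonunits_iff,
        PowerSeries.isUnit_iff_constantCoeff] at hf
      have hc : PowerSeries.constantCoeff f ∈ Ideal.ofList ss := by
        rw [hgen]; exact hf
      rw [f.eq_X_mul_shift_add_const, Ideal.ofList_cons]
      refine Ideal.add_mem _ (Ideal.mem_sup_left ?_) (Ideal.mem_sup_right ?_)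
      · exact Ideal.mul_mem_right _ _ (Ideal.mem_span_singleton_self _)
      · have : Ideal.ofList (ss.map PowerSeries.C) =
            (Ideal.ofList ss).map (PowerSeries.C (R := S)) := (Ideal.map_ofList _ ss).symm
        rw [this]
        exact Ideal.mem_map_of_mem _ hc

theorem regGen_dvr (𝒪 : Type) [CommRing 𝒪] [IsDomain 𝒪] [IsDiscreteValuationRing 𝒪] :
    RegGen 𝒪 1 := by
  obtain ⟨ϖ, hϖ⟩ := IsDiscreteValuationRing.exists_irreducible 𝒪
  refine ⟨[ϖ], rfl, ?_, ?_⟩
  · have hmem : ∀ r ∈ [ϖ], r ∈ maximalIdeal 𝒪 := by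
      intro r hr
      rw [List.mem_singleton] at hr
      subst hr
      rw [IsLocalRing.mem_maximalIdeal]
      exact hϖ.not_isUnit
    rw [IsLocalRing.isRegular_iff_isWeaklyRegular_of_subset_maximalIdeal hmem,
      isWeaklyRegular_singleton_iff]
    intro a b hab
    simp only [smul_eq_mul] at hab
    exact mul_left_cancel₀ hϖ.ne_zero hab
  · rw [Ideal.ofList_singleton]
    exact (Irreducible.maximalIdeal_eq hϖ).symm

theorem regGen_mvPowerSeries (𝒪 : Type) [CommRing 𝒪] [IsDomain 𝒪] [IsDiscreteValuationRing 𝒪]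
    (r : ℕ) : RegGen (MvPowerSeries (Fin r) 𝒪) (r + 1) := by
  induction r with
  | zero => exact (regGen_dvr 𝒪).of_ringEquiv (MvPowerSeries.isEmptyEquiv (Fin 0) 𝒪).toRingEquiv.symm
  | succ n ih => exact ih.powerSeries.of_ringEquiv (MvPowerSeries.finSuccEquiv 𝒪 n).toRingEquiv.symm


theorem isWeaklyRegular_pi {A : Type} [CommRing A] (d : ℕ) {ts : List A}
    (h : IsWeaklyRegular A ts) : IsWeaklyRegular (Fin d → A) ts :=
  ((TensorProduct.rid A (Fin d → A)).isWeaklyRegular_congr ts).mp
    (h.isWeaklyRegular_lTensor (M₂ := Fin d → A))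

end Fermat.Agent.S57
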